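import Mathlib
import Fermat.Prelude.Def_FormalHecke_Eigensystem

set_option autoImplicit false

namespace Fermat.Agent.S49

variable {R : Type*} [CommRing R]

/-- Un-normalised Hecke eigen-relations at all primes. -/
def IsWeakEigen (e lam b : ℕ → R) : Prop :=
  ∀ ℓ : ℕ, ℓ.Prime → ∀ n : ℕ,
    b (ℓ * n) + e ℓ * (if ℓ ∣ n then b (n / ℓ) else 0) = lam ℓ * b n

theorem eq_zero_of_isWeakEigen {e lam b : ℕ → R} (h : IsWeakEigen e lam b) (h1 : b 1 = 0) :
    ∀ n : ℕ, 0 < n → b n = 0 := by
  intro n
  induction n using Nat.strong_induction_on with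
  | _ n ih =>
    intro hn
    rcases Nat.lt_or_ge n 2 with hlt | hge
    · have : n = 1 := by omega
      rw [this]; exact h1
    · have hne : n ≠ 1 := by omega
      have hp : (n.minFac).Prime := Nat.minFac_prime hne
      obtain ⟨m, hm⟩ := Nat.minFac_dvd n
      have hp2 := hp.two_le
      have hmpos : 0 < m := by
        rcases Nat.eq_zero_or_pos m with h0 | h0
        · rw [h0, mul_zero] at hm; omega
        · exact h0
      have hmlt : m < n := by
        rw [hm]; nlinarith
      have key := h n.minFac hp m
      rw [← hm] at key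
      have hbm : b m = 0 := ih m hmlt hmpos
      have hsnd : (if n.minFac ∣ m then b (m / n.minFac) else 0) = 0 := by
        split_ifs with hd
        · apply ih
          · exact lt_of_le_of_lt (Nat.div_le_self _ _) hmlt
          · exact Nat.div_pos (Nat.le_of_dvd hmpos hd) hp.pos
        · rfl
      rw [hsnd, hbm, mul_zero, mul_zero, add_zero] at key
      exact key

theorem isRecursive_of_isEigensystem {e a : ℕ → R} (h : FormalHecke.IsEigensystem e a) :
    FormalHecke.IsRecursive e a := by
  obtain ⟨h1, hE⟩ := h
  refine ⟨h1, ?_, ?_⟩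
  · intro m
    induction m using Nat.strong_induction_on with
    | _ m ih =>
      intro n hmn
      rcases Nat.lt_or_ge m 2 with hlt | hge
      · interval_cases m
        · have : n = 1 := by simpa using hmn
          subst this; simp [h1]
        · simp [h1]
      · have hne : m ≠ 1 := by omega
        have hp : (m.minFac).Prime := Nat.minFac_prime hne
        obtain ⟨m', hm'⟩ := Nat.minFac_dvd m
        set ℓ := m.minFac with hℓ
        have hp2 := hp.two_le
        have hm'pos : 0 < m' := by
          rcases Nat.eq_zero_or_pos m' with h0 | h0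
          · rw [h0, mul_zero] at hm'; omega
          · exact h0
        have hm'lt : m' < m := by
          rw [hm']; nlinarith
        have hcop' : m'.Coprime n := Nat.Coprime.coprime_dvd_left ⟨ℓ, by rw [hm']; ring⟩ hmn
        have hcopℓ : ℓ.Coprime n := Nat.Coprime.coprime_dvd_left ⟨m', hm'⟩ hmn
        have hℓn : ¬ ℓ ∣ n := fun hd => by
          have := Nat.Coprime.eq_one_of_dvd hcopℓ hd
          omega
        have key1 := hE ℓ hp (m' * n)
        have key2 := hE ℓ hp m'
        have ih' := ih m' hm'lt n hcop'
        have e1 : m * n = ℓ * (m' * n) := by rw [hm']; ring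
        rw [e1, hm']
        by_cases hd : ℓ ∣ m'
        · obtain ⟨m'', hm''⟩ := hd
          have hm''lt : m'' < m := by
            have : m'' ≤ m' := by rw [hm'']; nlinarith
            omega
          have hcop'' : m''.Coprime n :=
            Nat.Coprime.coprime_dvd_left ⟨ℓ, by rw [hm'']; ring⟩ hcop'
          have ih'' := ih m'' hm''lt n hcop''
          have hd1 : ℓ ∣ m' * n := Dvd.dvd.mul_right ⟨m'', hm''⟩ n
          have hd2 : ℓ ∣ m' := ⟨m'', hm''⟩
          have e2 : m' * n / ℓ = m'' * n := by
            rw [hm'', mul_assoc, Nat.mul_div_cancel_left _ hp.pos]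
          have e3 : m' / ℓ = m'' := by
            rw [hm'', Nat.mul_div_cancel_left _ hp.pos]
          rw [if_pos hd1, e2, ih', ih''] at key1
          rw [if_pos hd2, e3] at key2
          have k1 : a (ℓ * (m' * n)) = a ℓ * (a m' * a n) - e ℓ * (a m'' * a n) := by
            rw [← key1]; ring
          have k2 : a (ℓ * m') = a ℓ * a m' - e ℓ * a m'' := by
            rw [← key2]; ring
          rw [k1, k2]; ring
        · have hd1 : ¬ ℓ ∣ m' * n := fun hdd =>
            (hp.dvd_mul.mp hdd).elim hd hℓn
          rw [if_neg hd1, ih', mul_zero, add_zero] at key1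
          rw [if_neg hd, mul_zero, add_zero] at key2
          rw [key1, key2]; ring
  · intro ℓ r hℓ
    have key := hE ℓ hℓ (ℓ ^ (r + 1))
    have hd : ℓ ∣ ℓ ^ (r + 1) := dvd_pow_self ℓ (Nat.succ_ne_zero r)
    rw [if_pos hd] at key
    have e1 : ℓ * ℓ ^ (r + 1) = ℓ ^ (r + 2) := by ring
    have e2 : ℓ ^ (r + 1) / ℓ = ℓ ^ r := by
      rw [pow_succ, Nat.mul_div_cancel _ hℓ.pos]
    rw [e1, e2] at key
    rw [← key]; ring

end Fermat.Agent.S49
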