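import Fermat.Agent.S49.Finite

set_option autoImplicit false

open CongruenceSubgroup ModularFormClass UpperHalfPlane EisensteinWeightOne

namespace Fermat.Agent.S49

variable {N : ℕ}

theorem bridgeProduct_coeff_sub_dvd (a : ℕ → ℤ) (n : ℕ) :
    (3 : ℤ) ∣ (bridgeProduct a).coeff n - a n := by
  unfold bridgeProduct e1Chi3In e1Chi3
  rw [PowerSeries.coeff_mul, Finset.Nat.sum_antidiagonal_eq_sum_range_succ_mk,
    Finset.sum_range_succ]
  simp only [PowerSeries.coeff_mk, PowerSeries.coeff_map, Nat.sub_self, if_true, map_one, mul_one,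
    add_sub_cancel_right]
  refine Finset.dvd_sum ?_
  intro i hi
  have hi' : n - i ≠ 0 := by
    have := Finset.mem_range.mp hi
    omega
  rw [if_neg hi']
  refine Dvd.dvd.mul_left ?_ _
  refine ⟨2 * sigmaChi (n - i), ?_⟩
  simp only [eq_intCast, Int.cast_id]
  ring

theorem three_dvd_sub_chiNegThree (ℓ : ℕ) : (3 : ℤ) ∣ (ℓ : ℤ) - chiNegThree ℓ := by
  unfold chiNegThree
  split_ifs <;> omega

/-- Forms all of whose q-coefficients are divisible by 3. -/
def Div3 (g : CuspForm (Gamma0 N) 2) : Prop :=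
  ∀ n : ℕ, ∃ m : ℤ, qCoeff ⇑g n = 3 * (m : ℂ)

theorem Div3.add {f g : CuspForm (Gamma0 N) 2} (hf : Div3 f) (hg : Div3 g) : Div3 (f + g) := by
  intro n
  obtain ⟨a, ha⟩ := hf n
  obtain ⟨b, hb⟩ := hg n
  exact ⟨a + b, by rw [qCoeff_add, ha, hb]; push_cast; ring⟩

theorem Div3.zero : Div3 (0 : CuspForm (Gamma0 N) 2) :=
  fun n => ⟨0, by rw [qCoeff_zero]; simp⟩

theorem Div3.hecke [NeZero N] {g : CuspForm (Gamma0 N) 2} (hg : Div3 g)
    {t : Module.End ℂ (CuspForm (Gamma0 N) 2)} (ht : t ∈ CuspForm.heckeAlgebra N 2 ∅) :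
    Div3 (t g) := by
  have hg' : ((3 : ℂ)⁻¹ • g) ∈ CuspForm.intLattice N 2 := by
    rw [mem_intLattice_iff]
    intro n
    obtain ⟨m, hm⟩ := hg n
    exact ⟨m, by rw [qCoeff_smul, hm]; field_simp⟩
  have h2 := CuspForm.mem_intLattice_of_mem_heckeAlgebra (by norm_num) ht hg'
  rw [mem_intLattice_iff] at h2
  intro n
  obtain ⟨m, hm⟩ := h2 n
  refine ⟨m, ?_⟩
  have e : t g = (3 : ℂ) • t ((3 : ℂ)⁻¹ • g) := by
    rw [map_smul, smul_smul, mul_inv_cancel₀ (by norm_num), one_smul]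
  rw [e, qCoeff_smul, hm]

/-- The ideal of Hecke operators killing `f₀` modulo 3. -/
noncomputable def m0 (N : ℕ) [NeZero N] (f₀ : CuspForm (Gamma0 N) 2) :
    Ideal (CuspForm.heckeAlgebra N 2 ∅) where
  carrier := {t | Div3 ((t : Module.End ℂ (CuspForm (Gamma0 N) 2)) f₀)}
  add_mem' := fun {s t} hs ht => by
    have e : ((s + t : CuspForm.heckeAlgebra N 2 ∅) : Module.End ℂ (CuspForm (Gamma0 N) 2)) f₀ =
        (s : Module.End ℂ (CuspForm (Gamma0 N) 2)) f₀ +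
          (t : Module.End ℂ (CuspForm (Gamma0 N) 2)) f₀ := rfl
    show Div3 _
    rw [e]
    exact Div3.add hs ht
  zero_mem' := by
    show Div3 _
    have e : ((0 : CuspForm.heckeAlgebra N 2 ∅) : Module.End ℂ (CuspForm (Gamma0 N) 2)) f₀ = 0 :=
      rfl
    rw [e]
    exact Div3.zero
  smul_mem' := fun c t ht => by
    have e : ((c • t : CuspForm.heckeAlgebra N 2 ∅) : Module.End ℂ (CuspForm (Gamma0 N) 2)) f₀ =
        (c : Module.End ℂ (CuspForm (Gamma0 N) 2))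
          ((t : Module.End ℂ (CuspForm (Gamma0 N) 2)) f₀) := rfl
    show Div3 _
    rw [e]
    exact Div3.hecke ht c.2

theorem mem_m0 [NeZero N] (f₀ : CuspForm (Gamma0 N) 2) (t : CuspForm.heckeAlgebra N 2 ∅) :
    t ∈ m0 N f₀ ↔ Div3 ((t : Module.End ℂ (CuspForm (Gamma0 N) 2)) f₀) := Iff.rfl

end Fermat.Agent.S49
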