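import Mathlib

set_option autoImplicit false

namespace Fermat.Agent.S49

/-- A commuting family of endomorphisms of a finite-dimensional space over an algebraically
closed field has a common eigenvector in any nonzero stable subspace. -/
theorem exists_common_eigenvector {K V : Type*} [Field K] [IsAlgClosed K] [AddCommGroup V]
    [Module K V] [FiniteDimensional K V] (S : Set (Module.End K V))
    (hS : ∀ f ∈ S, ∀ g ∈ S, Commute f g) :
    ∀ (d : ℕ) (W : Submodule K V), Module.finrank K W = d → W ≠ ⊥ →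
      (∀ f ∈ S, ∀ w ∈ W, f w ∈ W) →
      ∃ v ∈ W, v ≠ 0 ∧ ∀ f ∈ S, ∃ μ : K, f v = μ • v := by
  intro d
  induction d using Nat.strong_induction_on with
  | _ d ih =>
    intro W hd hW hstab
    by_cases hsc : ∀ f ∈ S, ∃ μ : K, ∀ w ∈ W, f w = μ • w
    · obtain ⟨v, hvW, hv0⟩ := (Submodule.ne_bot_iff W).mp hW
      exact ⟨v, hvW, hv0, fun f hf => (hsc f hf).imp fun μ hμ => hμ v hvW⟩
    · push_neg at hsc
      obtain ⟨f, hf, hns⟩ := hsc
      have hmaps : ∀ w ∈ W, f w ∈ W := hstab f hf
      haveI : Nontrivial W := (Submodule.nontrivial_iff_ne_bot).mpr hW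
      obtain ⟨μ, hμ⟩ := Module.End.exists_eigenvalue (f.restrict hmaps)
      obtain ⟨w, hw⟩ := hμ.exists_hasEigenvector
      let W' : Submodule K V :=
        { carrier := {v | v ∈ W ∧ f v = μ • v}
          add_mem' := fun {x y} hx hy => ⟨W.add_mem hx.1 hy.1, by
            rw [map_add, hx.2, hy.2, smul_add]⟩
          zero_mem' := ⟨W.zero_mem, by rw [map_zero, smul_zero]⟩
          smul_mem' := fun c x hx => ⟨W.smul_mem c hx.1, by
            rw [map_smul, hx.2, smul_comm]⟩ }
      have hW'le : W' ≤ W := fun x hx => hx.1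
      have hW'ne : W' ≠ ⊥ := by
        intro hbot
        have hwmem : (w : V) ∈ W' := by
          refine ⟨w.2, ?_⟩
          have := hw.apply_eq_smul
          have h2 := congrArg (Subtype.val) this
          simpa using h2
        rw [hbot, Submodule.mem_bot] at hwmem
        exact hw.2 (Subtype.ext hwmem)
      have hW'lt : W' < W := by
        refine lt_of_le_of_ne hW'le ?_
        intro heq
        obtain ⟨x, hxW, hx⟩ := hns μ
        have : x ∈ W' := heq ▸ hxW
        exact hx this.2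
      have hlt : Module.finrank K W' < d := by
        rw [← hd]
        exact Submodule.finrank_lt_finrank_of_lt hW'lt
      obtain ⟨v, hvW', hv0, hv⟩ := ih _ hlt W' rfl hW'ne (by
        intro g hg x hx
        refine ⟨hstab g hg x hx.1, ?_⟩
        have hc := (hS f hf g hg).eq
        have := LinearMap.congr_fun hc x
        rw [Module.End.mul_apply, Module.End.mul_apply, hx.2, map_smul] at this
        exact this)
      exact ⟨v, hW'le hvW', hv0, hv⟩

/-- Deligne–Serre lifting, abstract form. -/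
theorem exists_eigen_lift {A : Type*} [CommRing A] [Module.Finite ℤ A] {V : Type*}
    [AddCommGroup V] [Module ℂ V] [FiniteDimensional ℂ V] (φ : A →+* Module.End ℂ V)
    (hφ : Function.Injective φ) (I : Ideal A) (hI : I ≠ ⊤) :
    ∃ (v : V) (χ : A →+* integralClosure ℤ ℂ) (𝔪' : Ideal (integralClosure ℤ ℂ)),
      v ≠ 0 ∧ 𝔪'.IsMaximal ∧ (∀ t, φ t v = ((χ t : integralClosure ℤ ℂ) : ℂ) • v) ∧
        ∀ t ∈ I, χ t ∈ 𝔪' := by
  classical
  haveI : IsNoetherianRing A := IsNoetherianRing.of_finite ℤ A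
  haveI : Algebra.IsIntegral ℤ A := Algebra.IsIntegral.of_finite ℤ A
  obtain ⟨𝔪, h𝔪max, hI𝔪⟩ := Ideal.exists_le_maximal I hI
  haveI := h𝔪max.isPrime
  obtain ⟨𝔭, h𝔭min, h𝔭𝔪⟩ := Ideal.exists_minimalPrimes_le (bot_le : (⊥ : Ideal A) ≤ 𝔪)
  have hass : 𝔭 ∈ associatedPrimes A A := by
    apply Module.associatedPrimes.minimalPrimes_annihilator_subset_associatedPrimes A A
    have hann : Module.annihilator A A = ⊥ := by
      rw [eq_bot_iff]
      intro x hx
      have := Module.mem_annihilator.mp hx (1 : A)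
      simpa using this
    rw [hann]
    exact h𝔭min
  obtain ⟨h𝔭prime, t, ht⟩ := (isAssociatedPrime_iff).mp hass
  have ht' : ∀ x, x ∈ 𝔭 ↔ x * t = 0 := by
    intro x
    rw [ht, Submodule.mem_colon_singleton, Submodule.mem_bot, smul_eq_mul]
  have ht0 : t ≠ 0 := by
    intro h0
    apply h𝔭prime.ne_top
    rw [Ideal.eq_top_iff_one, ht', h0, mul_zero]
  -- the 𝔭-torsion subspace
  let W : Submodule ℂ V :=
    { carrier := {v | ∀ x ∈ 𝔭, φ x v = 0}
      add_mem' := fun {a b} ha hb x hx => by rw [map_add, ha x hx, hb x hx, add_zero]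
      zero_mem' := fun x _ => map_zero _
      smul_mem' := fun c a ha x hx => by rw [map_smul, ha x hx, smul_zero] }
  have hWne : W ≠ ⊥ := by
    have hφt : φ t ≠ 0 := fun h => ht0 (hφ (h.trans (map_zero φ).symm))
    obtain ⟨w, hw⟩ : ∃ w, φ t w ≠ 0 := by
      by_contra hcon
      push_neg at hcon
      exact hφt (LinearMap.ext hcon)
    intro hbot
    have hmem : φ t w ∈ W := by
      intro x hx
      rw [← Module.End.mul_apply, ← map_mul, (ht' x).mp hx, map_zero, LinearMap.zero_apply]
    rw [hbot, Submodule.mem_bot] at hmem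
    exact hw hmem
  obtain ⟨v, hvW, hv0, hv⟩ := exists_common_eigenvector (Set.range φ)
    (by
      rintro _ ⟨a, rfl⟩ _ ⟨b, rfl⟩
      show φ a * φ b = φ b * φ a
      rw [← map_mul, ← map_mul, mul_comm])
    _ W rfl hWne
    (by
      rintro _ ⟨a, rfl⟩ w hw x hx
      rw [← Module.End.mul_apply, ← map_mul, mul_comm, map_mul, Module.End.mul_apply, hw x hx,
        map_zero])
  have hv' : ∀ s : A, ∃ μ : ℂ, φ s v = μ • v := fun s => hv (φ s) ⟨s, rfl⟩
  choose μ hμ using hv'
  have huniq : ∀ c d : ℂ, c • v = d • v → c = d := by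
    intro c d h
    by_contra hne
    have h2 : (c - d) • v = 0 := by rw [sub_smul, h, sub_self]
    exact hv0 ((smul_eq_zero.mp h2).resolve_left (sub_ne_zero.mpr hne))
  let χ₀ : A →+* ℂ :=
    { toFun := μ
      map_one' := huniq _ _ (by rw [← hμ, map_one, one_smul, Module.End.one_apply])
      map_mul' := fun s t => huniq _ _ (by
        rw [← hμ, map_mul, Module.End.mul_apply, hμ t, map_smul, hμ s, smul_smul, mul_comm])
      map_zero' := huniq _ _ (by rw [← hμ, map_zero, zero_smul, LinearMap.zero_apply])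
      map_add' := fun s t => huniq _ _ (by
        rw [← hμ, map_add, LinearMap.add_apply, hμ s, hμ t, add_smul]) }
  have hχ₀ : ∀ s, φ s v = χ₀ s • v := hμ
  have hker1 : ∀ x ∈ 𝔭, χ₀ x = 0 := by
    intro x hx
    have h1 : χ₀ x • v = 0 := by rw [← hχ₀]; exact hvW x hx
    exact (smul_eq_zero.mp h1).resolve_right hv0
  have hker2 : ∀ x, χ₀ x = 0 → x ∈ 𝔭 := by
    intro x hx
    by_contra hxp
    have hle : 𝔭 ≤ RingHom.ker χ₀ := fun y hy => (RingHom.mem_ker).mpr (hker1 y hy)
    have hlt := Ideal.comap_lt_comap_of_integral_mem_sdiff (R := ℤ) hle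
      (x := x) ⟨(RingHom.mem_ker).mpr hx, hxp⟩ (Algebra.IsIntegral.isIntegral x)
    have hbot : (RingHom.ker χ₀).comap (algebraMap ℤ A) = ⊥ := by
      rw [eq_bot_iff]
      intro n hn
      rw [Ideal.mem_comap, RingHom.mem_ker] at hn
      have : (n : ℂ) = 0 := by simpa using hn
      rw [Submodule.mem_bot]
      exact_mod_cast this
    rw [hbot] at hlt
    exact not_lt_bot hlt
  have hint : ∀ s, χ₀ s ∈ integralClosure ℤ ℂ := fun s =>
    (Algebra.IsIntegral.isIntegral (R := ℤ) s).map χ₀.toIntAlgHom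
  let χ : A →+* integralClosure ℤ ℂ :=
    { toFun := fun s => ⟨χ₀ s, hint s⟩
      map_one' := Subtype.ext (map_one χ₀)
      map_mul' := fun s t => Subtype.ext (map_mul χ₀ s t)
      map_zero' := Subtype.ext (map_zero χ₀)
      map_add' := fun s t => Subtype.ext (map_add χ₀ s t) }
  letI : Algebra A (integralClosure ℤ ℂ) := χ.toAlgebra
  haveI : Algebra.IsIntegral A (integralClosure ℤ ℂ) :=
    ⟨fun z => (Algebra.IsIntegral.isIntegral (R := ℤ) z).tower_top⟩
  have hkerle : RingHom.ker (algebraMap A (integralClosure ℤ ℂ)) ≤ 𝔪 := by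
    intro x hx
    apply h𝔭𝔪
    apply hker2
    have := (RingHom.mem_ker).mp hx
    exact congrArg Subtype.val this
  obtain ⟨Q, hQmax, hQ⟩ := Ideal.exists_ideal_over_maximal_of_isIntegral
    (S := integralClosure ℤ ℂ) 𝔪 hkerle
  refine ⟨v, χ, Q, hv0, hQmax, fun s => hχ₀ s, fun s hs => ?_⟩
  have : s ∈ Q.comap (algebraMap A (integralClosure ℤ ℂ)) := hQ ▸ hI𝔪 hs
  exact this

end Fermat.Agent.S49
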