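import Fermat.Agent.S49.QCoeff

set_option autoImplicit false

open CongruenceSubgroup ModularFormClass UpperHalfPlane

namespace Fermat.Agent.S49

variable {N : ℕ}

theorem span_intLattice_eq_top (h : CuspForm.HasIntegralBasis N) :
    Submodule.span ℂ (CuspForm.intLattice N 2 : Set (CuspForm (Gamma0 N) 2)) = ⊤ := by
  rw [eq_top_iff]
  unfold CuspForm.HasIntegralBasis at h
  rw [← h]
  exact Submodule.span_mono (qIntegralSet_subset N)

theorem finite_of_hasIntegralBasis [NeZero N] (h : CuspForm.HasIntegralBasis N) :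
    Module.Finite ℂ (CuspForm (Gamma0 N) 2) := by
  obtain ⟨s, hs⟩ := CuspForm.intLattice_fg N 2
  refine ⟨⟨s, ?_⟩⟩
  rw [eq_top_iff, ← span_intLattice_eq_top h]
  refine Submodule.span_le.mpr ?_
  rw [← hs]
  exact Submodule.span_le_restrictScalars ℤ ℂ (s : Set (CuspForm (Gamma0 N) 2))

/-- Restriction of Hecke operators to the integral lattice. -/
noncomputable def latticeRestrict (N : ℕ) [NeZero N] :
    (CuspForm.heckeAlgebra N 2 ∅) →ₗ[ℤ]
      (CuspForm.intLattice N 2 →ₗ[ℤ] CuspForm.intLattice N 2) where
  toFun t := ((t : Module.End ℂ (CuspForm (Gamma0 N) 2)).restrictScalars ℤ).restrict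
    (fun f hf => CuspForm.mem_intLattice_of_mem_heckeAlgebra (by norm_num) t.2 hf)
  map_add' s t := by
    ext f
    rfl
  map_smul' c t := by
    ext f
    rfl

theorem latticeRestrict_injective [NeZero N] (h : CuspForm.HasIntegralBasis N) :
    Function.Injective (latticeRestrict N) := by
  rw [injective_iff_map_eq_zero]
  intro t ht
  apply Subtype.ext
  apply LinearMap.ext_on (span_intLattice_eq_top h)
  intro f hf
  have := LinearMap.congr_fun ht ⟨f, hf⟩
  exact congrArg Subtype.val this

theorem heckeAlgebra_finite [NeZero N] (h : CuspForm.HasIntegralBasis N) :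
    Module.Finite ℤ (CuspForm.heckeAlgebra N 2 ∅) := by
  haveI : Module.Finite ℤ (CuspForm.intLattice N 2) :=
    Module.Finite.iff_fg.mpr (CuspForm.intLattice_fg N 2)
  exact Module.Finite.of_injective (latticeRestrict N) (latticeRestrict_injective h)

end Fermat.Agent.S49
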